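import Fermat.Agent.Jugendtraum.Ray
import Fermat.Agent.Root.SummaryArtinReciprocity
import Fermat.Agent.HeckeTorus.Ray
import Fermat.Agent.Chebotarev.Relative
import Fermat.Agent.Independence.Family
import Fermat.Agent.Root.SummaryExceptional
import Fermat.Agent.Root.SummaryFrobeniusFieldCM
import Fermat.Agent.Root.SummarySplitLevel

/-!
# Kronecker's Jugendtraum

Let `E` be an elliptic curve over `ℚ` with `a_l = 0` at the good inert primes of `K = ℚ(√d)`.  A
finite abelian extension of `K` has by Artin reciprocity a modulus dividing some `n ≥ 3`, and an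
automorphism fixing `K (E[n])` is a Frobenius element at some `q`; then `n² ∣ q + 1 - a_q` and
`n ∣ a_q - 2`, so the primes over `q` have generators congruent to `1` modulo `n`, and the
automorphism is trivial on the extension.
-/

set_option autoImplicit false
set_option linter.style.haveILetI false
set_option linter.unusedSectionVars false

noncomputable section

open WeierstrassCurve WeierstrassCurve.Affine FA.Frob FA.EC NumberField IsDedekindDomain
open FA.RT.Tate (Pts)
open FA.Chebotarev (natCard_quotient_of_forall_pow exists_isFrobPair_restrict isOpen_ker_restrict)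
open FA.Density (IsFrobPair exists_unramified)
open scoped WeierstrassCurve.Affine Classical Pointwise

local notation "Qb" => AlgebraicClosure ℚ
local notation "GQ" => AlgebraicClosure ℚ ≃ₐ[ℚ] AlgebraicClosure ℚ

namespace FA.Jugendtraum

variable {E : WeierstrassCurve ℚ} [E.IsElliptic] {d : ℤ} {s : Qb}

/-- `σ` fixes the points killed by `n`. -/
def FixesTorsion (E : WeierstrassCurve ℚ) (n : ℕ) (σ : GQ) : Prop :=
  ∀ P : (E.toAffine⁄Qb).Point, n • P = 0 → Affine.Point.map (W' := E.toAffine) σ.toAlgHom P = P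

/-- The automorphisms fixing the points killed by `n`. -/
def torsionFixer (E : WeierstrassCurve ℚ) (n : ℕ) : Subgroup GQ :=
  FA.Independence.Family.fixer (fun _ : Unit => E) n

theorem mem_torsionFixer {n : ℕ} {σ : GQ} : σ ∈ torsionFixer E n ↔ FixesTorsion E n σ :=
  ⟨fun h => h (), fun h _ => h⟩

instance torsionFixer_normal {n : ℕ} : (torsionFixer E n).Normal := ⟨fun σ hσ τ => by
  rw [mem_torsionFixer] at hσ ⊢
  intro P hP
  rw [← Affine.Point.algEquiv_smul_def, mul_smul, mul_smul]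
  have h := hσ (τ⁻¹ • P) (by
    rw [Affine.Point.algEquiv_smul_def, ← map_nsmul, hP, _root_.map_zero])
  rw [← Affine.Point.algEquiv_smul_def] at h
  rw [h, smul_inv_smul]⟩

/-- `s` goes to `± s`. -/
theorem apply_sqrt (hs : s ^ 2 = (d : Qb)) (g : GQ) : g s = s ∨ g s = -s :=
  sq_eq_sq_iff_eq_or_eq_neg.mp (by rw [← map_pow, hs, map_intCast])

theorem conj_apply_sqrt (hs : s ^ 2 = (d : Qb)) {σ : GQ} (hσ : σ s = s) (g : GQ) :
    (g * σ * g⁻¹) s = s := by
  rw [AlgEquiv.mul_apply, AlgEquiv.mul_apply]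
  rcases apply_sqrt hs g⁻¹ with e | e
  · rw [e, hσ]
    conv_lhs => rw [← e]
    exact g.apply_symm_apply s
  · rw [e, map_neg, hσ]
    conv_lhs => rw [← e]
    exact g.apply_symm_apply s

/-- The quadratic field. -/
theorem finrank_adjoin_sqrt (hd0 : d < 0) (hs : s ^ 2 = (d : Qb)) :
    Module.finrank ℚ (IntermediateField.adjoin ℚ {s}) = 2 := by
  have hint : IsIntegral ℚ s := Algebra.IsIntegral.isIntegral s
  rw [IntermediateField.adjoin.finrank hint]
  refine le_antisymm ?_ ?_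
  · refine (Polynomial.natDegree_le_of_dvd (minpoly.dvd ℚ s (p := Polynomial.X ^ 2 -
      Polynomial.C (d : ℚ)) (by simp [hs]))
      (Polynomial.X_pow_sub_C_ne_zero two_pos _)).trans_eq Polynomial.natDegree_X_pow_sub_C
  · by_contra hlt
    have h1 := minpoly.natDegree_pos hint
    obtain ⟨q, hq⟩ := minpoly.natDegree_eq_one_iff.mp (show (minpoly ℚ s).natDegree = 1 by omega)
    have hsq : q ^ 2 = (d : ℚ) := (algebraMap ℚ Qb).injective
      (by rw [map_pow, hq, hs, map_intCast])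
    have : (d : ℚ) < 0 := Int.cast_lt_zero.mpr hd0
    nlinarith [sq_nonneg q]

/-- Full torsion modulo `q` forces congruences on the trace. -/
theorem congruences_of_trivial {W : WeierstrassCurve ℤ} [(ratCurve W).IsElliptic]
    (hW : W.IsIntegralModelOf E) {q : ℕ} [hq : Fact q.Prime] (h3 : 3 ≤ q)
    (hgood : W.IsGoodPrimeFor q) {n : ℕ} (hqn : ¬ q ∣ n) {A : ValuationSubring Qb}
    (hA : A.LiesOverPrime q) {σ : GQ} (hσ : A.IsFrobeniusAt σ q) (hfix : FixesTorsion E n σ) :
    (n : ℤ) ∣ W.apOfModel q - 2 ∧ (n : ℤ) ^ 2 ∣ (q : ℤ) + 1 - W.apOfModel q := by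
  haveI : (W.map (Int.castRingHom (ZMod q))).IsElliptic :=
    FA.PointDiv.reductionMod_isElliptic W hgood
  set V := W.map (Int.castRingHom (ZMod q))
  obtain ⟨d₀, hde, hcard, -, h2, -⟩ := FA.ReducedGroups.exists_equiv_zmod h3 V
  have he0 : 0 < AddMonoid.exponent V.toAffine.Point :=
    Nat.pos_of_ne_zero AddMonoid.exponent_ne_zero_of_finite
  obtain ⟨e, he⟩ := FA.Root.exists_equiv_of_model hW
  have hdiv := (FA.ReducedGroups.frobenius_trivial_iff W h3 hgood hqn hA hσ).mp fun x hx =>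
    e.injective ((he σ x).trans (hfix (e x) (by rw [← map_nsmul, hx, _root_.map_zero])))
  rw [← hcard, Nat.mul_div_cancel _ he0] at hdiv
  refine ⟨(Int.natCast_dvd_natCast.mpr hdiv).trans h2, ?_⟩
  have hq1 : (q : ℤ) + 1 - W.apOfModel q = (Nat.card V.toAffine.Point : ℤ) := by
    rw [WeierstrassCurve.apOfModel, WeierstrassCurve.traceOfFrobenius, Nat.card_zmod]
    show (q : ℤ) + 1 - ((q : ℤ) + 1 - (Nat.card V.toAffine.Point : ℤ)) = _
    ring
  rw [hq1, ← hcard, sq]
  push_cast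
  exact mul_dvd_mul (Int.natCast_dvd_natCast.mpr hdiv)
    (Int.natCast_dvd_natCast.mpr (hdiv.trans hde))

/-- **Every finite abelian extension of `ℚ(√d)` lies in a field of torsion points.** -/
theorem exists_level (hd : Squarefree d) (hd1 : d ≠ 1)
    (h : ∀ l : ℕ, ∀ [Fact l.Prime],
      (∃ C : VariableChange ℚ_[l],
        HasGoodReduction ℤ_[l] (C • E.map (algebraMap ℚ ℚ_[l]))) →
      ¬ IsSquare (d : ZMod l) → E.LFunction l = 0)
    (hs : s ^ 2 = (d : Qb)) (F : IntermediateField ℚ Qb) [FiniteDimensional ℚ F] [IsGalois ℚ F]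
    (hsF : s ∈ F)
    (hcomm : ∀ σ τ : GQ, σ s = s → τ s = s → ∀ x ∈ F, (σ * τ * σ⁻¹ * τ⁻¹) x = x) :
    ∃ n : ℕ, 0 < n ∧ ∀ σ : GQ, σ s = s → FixesTorsion E n σ → ∀ x ∈ F, σ x = x := by
  have hd0 : d < 0 := FA.Summary.exceptional_imaginary E hd hd1 h
  obtain ⟨W, hW⟩ := exists_integralModel E
  haveI := ratCurve_isElliptic_of_Δ (Δ_ne_zero_of_model hW)
  set K : IntermediateField ℚ Qb := IntermediateField.adjoin ℚ {s} with hKdef
  have hsK : s ∈ K := IntermediateField.mem_adjoin_simple_self ℚ s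
  have hK := finrank_adjoin_sqrt hd0 hs
  haveI : FiniteDimensional ℚ K := Module.finite_of_finrank_pos (by rw [hK]; exact two_pos)
  haveI : NumberField K := { }
  haveI : NumberField F := { }
  haveI : Algebra.IsQuadraticExtension ℚ K := { finrank_eq_two' := hK }
  have hle : K ≤ F := IntermediateField.adjoin_simple_le_iff.mpr hsF
  letI : Algebra K F := (IntermediateField.inclusion hle).toRingHom.toAlgebra
  haveI : IsScalarTower ℚ K F := IsScalarTower.of_algebraMap_eq fun _ => rfl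
  haveI : IsGalois K F := IsGalois.tower_top_of_isGalois ℚ K F
  set sK : K := ⟨s, hsK⟩ with hsKdef
  set π : GQ →* (F ≃ₐ[ℚ] F) := AlgEquiv.restrictNormalHom F with hπdef
  have hπ : Function.Surjective π := AlgEquiv.restrictNormalHom_surjective (F := ℚ) (K₁ := F) Qb
  have hval : ∀ (g : GQ) (x : F), ((π g x : F) : Qb) = g x :=
    fun g x => AlgEquiv.restrictNormal_commutes g F x
  -- the Galois group over `K` is commutative
  have hab : ∀ g g' : F ≃ₐ[K] F, g * g' = g' * g := fun g g' => by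
    obtain ⟨σ, hσ⟩ := hπ (g.restrictScalars ℚ)
    obtain ⟨τ, hτ⟩ := hπ (g'.restrictScalars ℚ)
    have hfix : ∀ (u : GQ) (k : F ≃ₐ[K] F), π u = k.restrictScalars ℚ → u s = s := fun u k hu => by
      have h1 := hval u (algebraMap K F sK)
      rw [hu, AlgEquiv.restrictScalars_apply, k.commutes] at h1
      exact h1.symm
    have hc : π (σ * τ * σ⁻¹ * τ⁻¹) = 1 := AlgEquiv.ext fun x => Subtype.ext
      ((hval _ x).trans (hcomm σ τ (hfix σ g hσ) (hfix τ g' hτ) x x.2))
    rw [map_mul, map_mul, map_mul, map_inv, map_inv, hσ, hτ, ← commutatorElement_def,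
      commutatorElement_eq_one_iff_mul_comm] at hc
    exact AlgEquiv.restrictScalars_injective ℚ hc
  obtain ⟨𝔪, h𝔪, -, ω, -, -, hω⟩ := FA.Summary.artin_reciprocity K F hab
  set n := 3 * Ideal.absNorm 𝔪 with hn
  have hn0 : n ≠ 0 := mul_ne_zero (by norm_num) (Ideal.absNorm_eq_zero_iff.not.mpr h𝔪)
  have hn𝔪 : (n : 𝓞 K) ∈ 𝔪 := by
    rw [hn, Nat.cast_mul]
    exact Ideal.mul_mem_left _ _ (Ideal.absNorm_mem 𝔪)
  refine ⟨n, Nat.pos_of_ne_zero hn0, fun σ hσs hσn => ?_⟩
  suffices hσ1 : π σ = 1 from fun x hx => by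
    have h1 := hval σ ⟨x, hx⟩
    rw [hσ1] at h1
    exact h1.symm
  -- Chebotarev
  obtain ⟨m, hm0, hm⟩ := exists_unramified F
  haveI := Subgroup.quotient_finite_of_isOpen _
    (FA.Independence.Family.isOpen_fixer (fun _ : Unit => E) hn0)
  haveI : Finite (GQ ⧸ torsionFixer E n) := ‹_›
  let f : GQ →* (F ≃ₐ[ℚ] F) × (GQ ⧸ torsionFixer E n) :=
    π.prod (QuotientGroup.mk' (torsionFixer E n))
  have hker : IsOpen (f.ker : Set GQ) := by
    have e : f.ker = π.ker ⊓ torsionFixer E n := by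
      rw [MonoidHom.ker_prod, QuotientGroup.ker_mk']
    rw [e, Subgroup.coe_inf]
    exact isOpen_ker_restrict.inter (FA.Independence.Family.isOpen_fixer (fun _ : Unit => E) hn0)
  obtain ⟨q, hq, hqS, hF⟩ := FA.OpenImageAll.exists_frobenius_mem_of_mem f hker
    (X := {g | IsConj (f σ) g}) (fun g hg x => hg.trans (isConj_iff.mpr ⟨x, rfl⟩))
    (σ := σ) (IsConj.refl _)
    ({2} ∪ m.divisors ∪ W.Δ.natAbs.primeFactors ∪ n.primeFactors)
  simp only [Finset.mem_union, Finset.mem_singleton, not_or] at hqS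
  obtain ⟨⟨⟨hq2, hqm⟩, hqΔ⟩, hqn'⟩ := hqS
  haveI := Fact.mk hq
  have h3 : 3 ≤ q := by have := hq.two_le; omega
  have hgood : W.IsGoodPrimeFor q := fun hd' => hqΔ (Nat.mem_primeFactors.mpr
    ⟨hq, Int.natCast_dvd.mp hd', Int.natAbs_ne_zero.mpr (Δ_ne_zero_of_model hW)⟩)
  have hqn : ¬ q ∣ n := fun hd' => hqn' (Nat.mem_primeFactors.mpr ⟨hq, hd', hn0⟩)
  obtain ⟨A, hA⟩ := FA.Deform.exists_liesOverPrime hq
  obtain ⟨φ, hφ⟩ := FA.Deform.exists_isFrobeniusAt hq hA
  obtain ⟨x, hx⟩ := isConj_iff.mp (hF A hA φ hφ)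
  obtain ⟨hx1, hx2⟩ := Prod.ext_iff.mp hx
  have hφn : FixesTorsion E n φ := by
    rw [← mem_torsionFixer, ← QuotientGroup.eq_one_iff]
    refine hx2.symm.trans ?_
    show x.2 * (QuotientGroup.mk' (torsionFixer E n) σ) * x.2⁻¹ = 1
    rw [QuotientGroup.mk'_apply, (QuotientGroup.eq_one_iff σ).mpr (mem_torsionFixer.mpr hσn), mul_one, mul_inv_cancel]
  obtain ⟨g, hg⟩ := hπ x.1
  have hπφ : π φ = π (g * σ * g⁻¹) := by
    rw [map_mul, map_mul, map_inv, hg]; exact hx1.symm
  -- the Frobenius element on `F`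
  obtain ⟨P, hP⟩ := exists_isFrobPair_restrict (F := F) hq (fun P hP hqP =>
    hm q P hq hP hqP fun hd' => hqm (Nat.mem_divisors.mpr ⟨hd', hm0⟩)) hA hφ
  change IsFrobPair q P (π φ) at hP
  suffices hφ1 : π φ = 1 by
    have h1 : π g * π σ * (π g)⁻¹ = 1 := by rw [← map_inv, ← map_mul, ← map_mul, ← hπφ, hφ1]
    exact conj_eq_one_iff.mp h1
  have hmem : g * σ * g⁻¹ ∈ K.fixingSubgroup :=
    by
      rw [IntermediateField.mem_fixingSubgroup_iff]
      intro y hy
      induction hy using IntermediateField.adjoin_induction with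
      | mem z hz => rw [Set.mem_singleton_iff.mp hz]; exact conj_apply_sqrt hs hσs g
      | algebraMap z => exact AlgEquiv.commutes _ z
      | add z w _ _ hz hw => rw [map_add, hz, hw]
      | inv z _ hz => rw [map_inv₀, hz]
      | mul z w _ _ hz hw => rw [map_mul, hz, hw]
  let τ : F ≃ₐ[K] F := AlgEquiv.ofRingEquiv (f := (π φ).toRingEquiv) fun y => Subtype.ext (by
    show ((π φ (algebraMap K F y) : F) : Qb) = _
    rw [hπφ, hval]
    exact (IntermediateField.mem_fixingSubgroup_iff _ _).mp hmem y y.2)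
  have hτ : ∀ z : F, τ z = π φ z := fun z => rfl
  haveI := hP.isMaximal
  have hmax : (P.under (𝓞 K)).IsMaximal := Ideal.IsMaximal.under (𝓞 K) P
  have hqv : (q : 𝓞 K) ∈ P.under (𝓞 K) := by
    rw [Ideal.mem_comap, map_natCast]; exact hP.mem
  have hcard : Nat.card (𝓞 K ⧸ P.under (𝓞 K)) = q := by
    refine natCard_quotient_of_forall_pow hq hmax hqv fun y => ?_
    rw [Ideal.mem_comap, map_sub, map_pow]
    have h1 := neg_mem (hP.frob (algebraMap (𝓞 K) (𝓞 F) y))
    rw [neg_sub] at h1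
    convert h1 using 2
    exact RingOfIntegers.ext (τ.commutes (y : K)).symm
  -- a generator congruent to one
  obtain ⟨h1, h2⟩ := congruences_of_trivial hW h3 hgood hqn hA hφ hφn
  have hgoodE : ∃ C : VariableChange ℚ_[q],
      HasGoodReduction ℤ_[q] (C • E.map (algebraMap ℚ ℚ_[q])) := by
    obtain ⟨C, hC⟩ := FA.Root.exists_good_of_not_dvd W q hgood
    obtain ⟨C₀, h₀⟩ := hW
    exact ⟨C * C₀.map (algebraMap ℚ ℚ_[q]),
      by rwa [mul_smul, WeierstrassCurve.map_variableChange, h₀]⟩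
  have hL := FA.Root.LFunction_apply_prime E W hW hq hgood
  have ha : W.apOfModel q ≠ 0 := fun e => by
    rw [e, zero_sub, dvd_neg] at h1
    have := Int.le_of_dvd two_pos h1
    have : 0 < Ideal.absNorm 𝔪 := Nat.pos_of_ne_zero (Ideal.absNorm_eq_zero_iff.not.mpr h𝔪)
    omega
  obtain ⟨-, b, -, hb⟩ :=
    FA.Summary.exceptional_normEquation E hd hd1 h q hgoodE (by rwa [hL])
  rw [hL, abs_of_neg hd0] at hb
  obtain ⟨c₀, hc₀⟩ : ∃ c : K ≃ₐ[ℚ] K, c sK = -sK := by
    by_contra hcon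
    push Not at hcon
    have hfixed : sK ∈ (⊥ : IntermediateField ℚ K) := by
      rw [← IsGalois.fixedField_top (F := ℚ) (E := K), IntermediateField.mem_fixedField_iff]
      intro c _
      exact ((sq_eq_sq_iff_eq_or_eq_neg).mp (by
        rw [← map_pow, show sK ^ 2 = (d : K) from Subtype.ext (by simpa [hsKdef] using hs),
          map_intCast])).resolve_right (hcon c)
    obtain ⟨r, hr⟩ := IntermediateField.mem_bot.mp hfixed
    have hsq : r ^ 2 = (d : ℚ) := (algebraMap ℚ K).injective (by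
      rw [map_pow, hr, map_intCast]; exact Subtype.ext (by simpa [hsKdef] using hs))
    have : (d : ℚ) < 0 := Int.cast_lt_zero.mpr hd0
    nlinarith [sq_nonneg r]
  obtain ⟨ρ, hρ, hρ1⟩ := exists_ray_generator c₀ hK (s := sK) (a := W.apOfModel q) (b := b)
    (Subtype.ext (by simpa [hsKdef] using hs)) hc₀ hq (by linear_combination hb) hn0 h1 h2
    hmax.isPrime hqv (by rw [Ideal.absNorm_apply, Submodule.cardQuot_apply]; exact hcard)
  -- Artin reciprocity
  have hρ𝔪 : ρ - 1 ∈ 𝔪 := Ideal.mem_of_dvd 𝔪 hρ1 hn𝔪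
  let v : HeightOneSpectrum (𝓞 K) := ⟨P.under (𝓞 K), hmax.isPrime,
    Ring.ne_bot_of_isMaximal_of_not_isField hmax (RingOfIntegers.not_isField _)⟩
  have hv : v.asIdeal ⊔ 𝔪 = ⊤ := by
    rw [Ideal.eq_top_iff_one]
    have hρv : ρ ∈ v.asIdeal := by
      show ρ ∈ P.under (𝓞 K)
      rw [hρ]; exact Ideal.mem_span_singleton_self ρ
    have := sub_mem (Ideal.mem_sup_left hρv) (Ideal.mem_sup_right (S := v.asIdeal) hρ𝔪)
    rwa [sub_sub_cancel] at this
  let Q : HeightOneSpectrum (𝓞 F) := ⟨P, hP.isMaximal.isPrime,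
    Ring.ne_bot_of_isMaximal_of_not_isField hP.isMaximal (RingOfIntegers.not_isField _)⟩
  have hfrob : IsArithFrobAt (𝓞 K) τ Q.asIdeal := fun y => by
    show _ ∈ P
    rw [hcard]
    exact hP.frob y
  have hclass : FA.Hecke.rayClass h𝔪 ⟨FA.Ext.primeIdeal v, hv⟩ = 1 := by
    refine (FA.HeckeTorus.rayClass_eq_one_iff h𝔪 _).mpr ⟨ρ, ⟨?_, hρ𝔪, fun ψ => ?_⟩, hρ.symm⟩
    · rintro rfl
      exact v.ne_bot (hρ.trans (Ideal.span_singleton_eq_bot.mpr rfl))
    · exfalso
      have h1 : ψ sK ^ 2 = (d : ℝ) := by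
        rw [← map_pow, show sK ^ 2 = (d : K) from Subtype.ext (by simpa [hsKdef] using hs),
          map_intCast]
      have : (d : ℝ) < 0 := Int.cast_lt_zero.mpr hd0
      nlinarith [sq_nonneg (ψ sK)]
  have hone := hω v hv Q τ rfl hfrob
  rw [hclass, map_one] at hone
  exact AlgEquiv.ext fun z => by rw [← hτ z, ← hone]; rfl

end FA.Jugendtraum

end
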