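import Mathlib.RingTheory.Ideal.Norm.AbsNorm
import Mathlib.NumberTheory.NumberField.InfinitePlace.Basic
import Mathlib.FieldTheory.Galois.Basic

/-!
# Primes of norm `q` with a generator congruent to one

If `4 q = a² - d b²`, `n ∣ a - 2` and `n² ∣ q + 1 - a`, then `((a ± b √d) / 2 - 1) / n` are
algebraic integers, so the prime ideals of norm `q` of `ℚ(√d)` have generators congruent to `1`
modulo `n`.
-/

set_option autoImplicit false
set_option linter.unusedSectionVars false

noncomputable section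

open NumberField Polynomial

namespace FA.Jugendtraum

variable {K : Type*} [Field K] [NumberField K]

/-- A root of `X ² - t X + e`. -/
theorem isIntegral_of_quadratic (t e : ℤ) {y : K} (h : y ^ 2 - (t : K) * y + (e : K) = 0) :
    IsIntegral ℤ y := by
  refine ⟨X ^ 2 - C t * X + C e, ?_, ?_⟩
  · monicity!
  · rw [← aeval_def]
    simpa using h

/-- **Generators congruent to one.** -/
theorem exists_ray_generator (c : K ≃ₐ[ℚ] K) (hK : Module.finrank ℚ K = 2) {s : K} {d a b : ℤ}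
    {q n : ℕ} (hs : s ^ 2 = (d : K)) (hcs : c s = -s) (hq : q.Prime)
    (h4 : 4 * (q : ℤ) = a ^ 2 - d * b ^ 2) (hn : n ≠ 0) (h1 : (n : ℤ) ∣ a - 2)
    (h2 : (n : ℤ) ^ 2 ∣ (q : ℤ) + 1 - a) {v : Ideal (𝓞 K)} (hv : v.IsPrime)
    (hqv : (q : 𝓞 K) ∈ v) (hcard : Ideal.absNorm v = q) :
    ∃ π : 𝓞 K, v = Ideal.span {π} ∧ (n : 𝓞 K) ∣ π - 1 := by
  obtain ⟨t, ht⟩ := h1
  obtain ⟨e, he⟩ := h2
  have hnK : (n : K) ≠ 0 := Nat.cast_ne_zero.mpr hn
  have htK : (a : K) - 2 = (n : K) * (t : K) := by exact_mod_cast congrArg (Int.cast (R := K)) ht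
  have heK : (q : K) + 1 - (a : K) = (n : K) ^ 2 * (e : K) := by
    exact_mod_cast congrArg (Int.cast (R := K)) he
  have h4K : 4 * (q : K) = (a : K) ^ 2 - (d : K) * (b : K) ^ 2 := by
    exact_mod_cast congrArg (Int.cast (R := K)) h4
  set y : K := (((a : K) + b * s) / 2 - 1) / n with hy
  set z : K := (((a : K) - b * s) / 2 - 1) / n with hz
  have hadd : y + z = (t : K) := by
    rw [hy, hz]; field_simp; linear_combination 2 * htK
  have hmul : y * z = (e : K) := by
    rw [hy, hz]; field_simp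
    linear_combination (-(b : K) ^ 2) * hs - h4K + 4 * heK
  have hyi : IsIntegral ℤ y := isIntegral_of_quadratic t e (by linear_combination y * hadd - hmul)
  have hzi : IsIntegral ℤ z := isIntegral_of_quadratic t e (by linear_combination z * hadd - hmul)
  let π : 𝓞 K := 1 + (n : 𝓞 K) * ⟨y, hyi⟩
  let π' : 𝓞 K := 1 + (n : 𝓞 K) * ⟨z, hzi⟩
  have hprod : π * π' = (q : 𝓞 K) := RingOfIntegers.coe_injective (by
    show (1 + (n : K) * y) * (1 + (n : K) * z) = (q : K)
    linear_combination (n : K) * hadd + (n : K) ^ 2 * hmul - htK - heK)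
  have hc : c (π : K) = (π' : K) := by
    show c (1 + (n : K) * y) = 1 + (n : K) * z
    rw [hy, hz, map_add, map_one, map_mul, map_natCast, map_div₀, map_natCast, map_sub, map_one,
      map_div₀, map_ofNat, map_add, map_intCast, map_mul, map_intCast, hcs]
    ring
  have hN : Algebra.norm ℤ π' = Algebra.norm ℤ π := Int.cast_injective (α := ℚ) (by
    rw [Algebra.coe_norm_int, Algebra.coe_norm_int, ← hc]
    exact Algebra.norm_eq_of_algEquiv c (π : K))
  have hN2 : (Algebra.norm ℤ π).natAbs ^ 2 = q ^ 2 := by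
    have h := congrArg (fun x => (Algebra.norm ℤ x).natAbs) hprod
    simp only [map_mul, hN, Int.natAbs_mul] at h
    rw [sq, h, ← map_natCast (algebraMap ℤ (𝓞 K)), Algebra.norm_algebraMap, RingOfIntegers.rank,
      hK, Int.natAbs_pow, Int.natAbs_natCast]
  have hNπ := Nat.pow_left_injective two_ne_zero hN2
  have key : ∀ ρ : 𝓞 K, (Algebra.norm ℤ ρ).natAbs = q → ρ ∈ v → v = Ideal.span {ρ} := by
    intro ρ hρ hρv
    obtain ⟨J, hJ⟩ := Ideal.dvd_iff_le.mpr ((Ideal.span_singleton_le_iff_mem v).mpr hρv)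
    have h := congrArg Ideal.absNorm hJ
    rw [map_mul, Ideal.absNorm_span_singleton, hρ, hcard] at h
    rw [Ideal.absNorm_eq_one_iff.mp ((mul_eq_left₀ hq.ne_zero).mp h.symm), Ideal.mul_top] at hJ
    exact hJ.symm
  rcases hv.mem_or_mem (hprod ▸ hqv) with hm | hm
  · exact ⟨π, key π hNπ hm, ⟨⟨y, hyi⟩, by ring⟩⟩
  · exact ⟨π', key π' (by rw [hN]; exact hNπ) hm, ⟨⟨z, hzi⟩, by ring⟩⟩

end FA.Jugendtraum

end
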